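import Fermat.Agent.RegulatorBound.Units
import Fermat.Agent.Perfect.Transference
import Fermat.Agent.TwoTorsionBound.Classes

/-!
# Silverman's inequality

Any `ρ + 1` independent units have a small combination generating `K` when no proper subfield has
unit rank above `ρ`; so the minima of the unit lattice from the `ρ`-th on are `≫ log |d|`, and by
Minkowski the regulator is `≫ (log |d|) ^ (r - ρ)`.
-/

set_option autoImplicit false
set_option linter.style.haveILetI false

noncomputable section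

namespace FA.RegulatorBound

open NumberField NumberField.Units NumberField.Units.dirichletUnitTheorem Module Matrix
open FA.Reduction (quad)
open FA.Perfect
open scoped IntermediateField Classical

theorem exists_rank_dual {ρ : ℕ} {E : Type*} [AddCommGroup E] [Module ℝ E] (S : Submodule ℝ E)
    [FiniteDimensional ℝ S] (hS : finrank ℝ S ≤ ρ) (T : (Fin (ρ + 1) → ℝ) →ₗ[ℝ] E)
    (hT : Function.Injective T) :
    ∃ f : (Fin (ρ + 1) → ℝ) →ₗ[ℝ] ℝ, f ≠ 0 ∧ ∀ a, T a ∈ S → f a = 0 := by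
  have hlt : S.comap T < ⊤ := by
    rw [lt_top_iff_ne_top]
    intro e
    obtain ⟨g, hg⟩ : ∃ g : (Fin (ρ + 1) → ℝ) →ₗ[ℝ] S, ∀ a, (g a : E) = T a :=
      ⟨T.codRestrict S fun a => show a ∈ S.comap T from e ▸ Submodule.mem_top, fun a => rfl⟩
    have h := LinearMap.finrank_le_finrank_of_injective (f := g) fun a b hab =>
      hT (by rw [← hg, ← hg, hab])
    rw [finrank_fintype_fun_eq_card, Fintype.card_fin] at h
    omega
  obtain ⟨f, hf, hmap⟩ := Submodule.exists_dual_map_eq_bot_of_lt_top hlt inferInstance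
  refine ⟨f, hf, fun a ha => ?_⟩
  have : f a ∈ (S.comap T).map f := Submodule.mem_map_of_mem ha
  rwa [hmap, Submodule.mem_bot] at this

/-- **A combination that generates.** -/
theorem exists_combination {K : Type} [Field K] [NumberField K] {n ρ : ℕ} (hn : finrank ℚ K = n)
    (hρ : ∀ F : IntermediateField ℚ K, F ≠ ⊤ → rank F ≤ ρ) (u : Fin (ρ + 1) → (𝓞 K)ˣ)
    (hu : LinearIndependent ℝ fun j => logEmbedding K (Additive.ofMul (u j))) :
    ∃ a : Fin (ρ + 1) → ℕ, (∀ j, a j ≤ (ρ * 2 ^ n + 1) ^ ρ) ∧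
      ℚ⟮((∏ j, u j ^ a j : (𝓞 K)ˣ) : K)⟯ = ⊤ := by
  obtain ⟨_, hfields⟩ := FA.TwoTorsionBound.exists_card_intermediateField_le (K := K)
  obtain ⟨T, hT⟩ : ∃ T : (Fin (ρ + 1) → ℝ) →ₗ[ℝ] logSpace K,
      ∀ a, T a = ∑ j, a j • logEmbedding K (Additive.ofMul (u j)) :=
    ⟨Fintype.linearCombination ℝ fun j => logEmbedding K (Additive.ofMul (u j)), fun _ => rfl⟩
  have hTinj : Function.Injective T := fun a b e => by
    rw [hT, hT, ← sub_eq_zero, ← Finset.sum_sub_distrib] at e
    simp only [← sub_smul] at e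
    exact funext fun j => sub_eq_zero.1 (Fintype.linearIndependent_iff.1 hu _ e j)
  have hF : ∀ F : IntermediateField ℚ K, ∃ p : Polynomial ℝ, p ≠ 0 ∧ p.natDegree ≤ ρ ∧
      (F ≠ ⊤ → ∀ t : ℕ, ((∏ j, u j ^ t ^ (j : ℕ) : (𝓞 K)ˣ) : K) ∈ F → p.eval (t : ℝ) = 0) := by
    intro F
    by_cases htop : F = ⊤
    · exact ⟨1, one_ne_zero, by simp, fun h => absurd htop h⟩
    obtain ⟨ι, hι⟩ : ∃ ι, ι = Units.map (algebraMap (𝓞 F) (𝓞 K)).toMonoidHom := ⟨_, rfl⟩
    obtain ⟨S, hS⟩ : ∃ S, S = Submodule.span ℝ (Set.range fun i : Fin (rank F) =>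
        logEmbedding K (Additive.ofMul (ι (fundSystem F i)))) := ⟨_, rfl⟩
    haveI : FiniteDimensional ℝ S := hS ▸ FiniteDimensional.span_of_finite ℝ (Set.finite_range _)
    have hdim : finrank ℝ S ≤ ρ := by
      refine le_trans ?_ (hρ F htop)
      rw [hS]
      exact (finrank_range_le_card _).trans (Fintype.card_fin _).le
    have hmem : ∀ x : (𝓞 K)ˣ, (x : K) ∈ F → logEmbedding K (Additive.ofMul x) ∈ S := by
      intro x hx
      have hlift : ∀ y : (𝓞 K)ˣ, (y : K) ∈ F → ∃ b : 𝓞 F, algebraMap (𝓞 F) (𝓞 K) b = y := by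
        intro y hy
        have hint : IsIntegral ℤ (⟨(y : K), hy⟩ : F) :=
          (isIntegral_algebraMap_iff (B := K) (algebraMap F K).injective).1
            (RingOfIntegers.isIntegral_coe _)
        exact ⟨⟨⟨(y : K), hy⟩, hint⟩, RingOfIntegers.ext rfl⟩
      obtain ⟨b, hb⟩ := hlift x hx
      obtain ⟨b', hb'⟩ := hlift x⁻¹ (by rw [map_units_inv (algebraMap (𝓞 K) K) x]; exact inv_mem hx)
      have hbb : b * b' = 1 := by
        apply FaithfulSMul.algebraMap_injective (𝓞 F) (𝓞 K)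
        rw [map_mul, hb, hb', map_one, Units.mul_inv]
      obtain ⟨y, hy⟩ : ∃ y : (𝓞 F)ˣ, x = ι y :=
        ⟨⟨b, b', hbb, mul_comm b b' ▸ hbb⟩, Units.ext (by rw [hι]; exact hb.symm)⟩
      obtain ⟨⟨ζ, e⟩, he, -⟩ := exist_unique_eq_mul_prod F y
      rw [hy, he, map_mul, map_prod, ofMul_mul, ofMul_prod, map_add, map_sum]
      refine Submodule.add_mem _ ?_ (Submodule.sum_mem _ fun i _ => ?_)
      · rw [logEmbedding_eq_zero_iff.2 ((CommGroup.mem_torsion _).2
          (MonoidHom.isOfFinOrder ι ((CommGroup.mem_torsion _).1 ζ.2)))]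
        exact zero_mem _
      · rw [map_zpow, ofMul_zpow, map_zsmul]
        exact zsmul_mem (hS ▸ Submodule.subset_span (Set.mem_range_self i)) _
    obtain ⟨f, hf0, hf⟩ := exists_rank_dual S hdim T hTinj
    obtain ⟨p, hp⟩ : ∃ p : Polynomial ℝ, p = ∑ j : Fin (ρ + 1),
        Polynomial.C (f (Pi.single j 1)) * Polynomial.X ^ (j : ℕ) := ⟨_, rfl⟩
    refine ⟨p, fun e => hf0 ?_, ?_, fun _ t ht => ?_⟩
    · refine (Pi.basisFun ℝ (Fin (ρ + 1))).ext fun j => ?_
      have h := congrArg (fun q : Polynomial ℝ => q.coeff (j : ℕ)) e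
      simp only [hp, Polynomial.finsetSum_coeff, Polynomial.coeff_C_mul_X_pow,
        Polynomial.coeff_zero] at h
      rw [Finset.sum_eq_single j (fun i _ hij => if_neg fun e' => hij (Fin.ext e'.symm))
        (fun h' => absurd (Finset.mem_univ j) h'), if_pos rfl] at h
      rw [Pi.basisFun_apply, h, LinearMap.zero_apply]
    · rw [hp]
      refine Polynomial.natDegree_sum_le_of_forall_le _ _ fun j _ => ?_
      exact (Polynomial.natDegree_C_mul_X_pow_le _ _).trans (Nat.le_of_lt_succ j.2)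
    · have h1 : T (fun j => (t : ℝ) ^ (j : ℕ)) ∈ S := by
        have h := hmem _ ht
        rw [ofMul_prod, map_sum] at h
        convert! h using 1
        rw [hT]
        refine Finset.sum_congr rfl fun j _ => ?_
        rw [ofMul_pow, map_nsmul, ← Nat.cast_smul_eq_nsmul ℝ, Nat.cast_pow]
      have h2 := hf _ h1
      rw [hp, Polynomial.eval_finsetSum]
      refine Eq.trans (Finset.sum_congr rfl fun j _ => ?_) ((LinearMap.pi_apply_eq_sum_univ f _).symm.trans h2)
      rw [Polynomial.eval_mul, Polynomial.eval_C, Polynomial.eval_pow, Polynomial.eval_X,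
        smul_eq_mul, mul_comm]
      congr 2
      funext i
      simp [Pi.single_apply, eq_comm]
  choose p hp0 hpd hpe using hF
  obtain ⟨Bad, hBad⟩ : ∃ Bad : Finset ℕ, Bad = (Finset.univ : Finset (IntermediateField ℚ K)).biUnion
      fun F => (Finset.range (ρ * 2 ^ n + 1)).filter fun t : ℕ => (p F).eval (t : ℝ) = 0 := ⟨_, rfl⟩
  have hcard : Bad.card ≤ ρ * 2 ^ n := by
    rw [hBad]
    refine (Finset.card_biUnion_le_card_mul _ _ ρ fun F _ => ?_).trans ?_
    · refine le_trans ?_ ((Polynomial.card_roots' (p F)).trans (hpd F))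
      refine le_trans ?_ (Multiset.toFinset_card_le _)
      refine Finset.card_le_card_of_injOn (fun t : ℕ => (t : ℝ)) (fun t ht => ?_)
        fun a _ b _ e => Nat.cast_injective e
      rw [Finset.mem_coe, Finset.mem_filter] at ht
      rw [Finset.mem_coe, Multiset.mem_toFinset, Polynomial.mem_roots (hp0 F)]
      exact ht.2
    · rw [Finset.card_univ, mul_comm ρ]
      exact Nat.mul_le_mul_right _ (hn ▸ hfields)
  obtain ⟨t, ht, htBad⟩ : ∃ t ∈ Finset.range (ρ * 2 ^ n + 1), t ∉ Bad :=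
    Finset.exists_mem_notMem_of_card_lt_card (by rw [Finset.card_range]; omega)
  rw [Finset.mem_range] at ht
  refine ⟨fun j => t ^ (j : ℕ), fun j => ?_, ?_⟩
  · exact (Nat.pow_le_pow_left ht.le _).trans
      (Nat.pow_le_pow_right (Nat.succ_pos _) (Nat.le_of_lt_succ j.2))
  · by_contra hne
    refine htBad (hBad ▸ Finset.mem_biUnion.2 ⟨_, Finset.mem_univ _,
      Finset.mem_filter.2 ⟨Finset.mem_range.2 ht, hpe _ hne t ?_⟩⟩)
    exact IntermediateField.mem_adjoin_simple_self ℚ _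

/-- **Silverman's inequality.** -/
theorem exists_silverman (n ρ : ℕ) : ∃ c : ℝ, 0 < c ∧ ∀ (K : Type) [Field K] [NumberField K],
    finrank ℚ K = n → (∀ F : IntermediateField ℚ K, F ≠ ⊤ → rank F ≤ ρ) →
      c * Real.log |(discr K : ℝ)| ^ (rank K - ρ) ≤ regulator K := by
  obtain ⟨δ, hδ, hδ1, hgap⟩ := exists_gap n
  obtain ⟨B, hB⟩ : ∃ B : ℝ, B = ((ρ : ℝ) + 1) * ((ρ * 2 ^ n + 1) ^ ρ : ℕ) := ⟨_, rfl⟩
  obtain ⟨C₀, hC₀⟩ : ∃ C₀ : ℝ, C₀ = 2 * Real.log n.factorial / δ + 2 * (n : ℝ) ^ 3 * B + 1 :=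
    ⟨_, rfl⟩
  have hC0 : 1 ≤ C₀ := by
    rw [hC₀]
    have h1 : 0 ≤ 2 * Real.log (n.factorial : ℕ) / δ :=
      div_nonneg (mul_nonneg zero_le_two (Real.log_natCast_nonneg _)) hδ.le
    have h2 : 0 ≤ 2 * (n : ℝ) ^ 3 * B := hB ▸ by positivity
    linarith
  obtain ⟨Γ, hΓ⟩ : ∃ Γ : ℝ, Γ = Real.sqrt ((4 / 3 : ℝ) ^ (n * (n + 1))) := ⟨_, rfl⟩
  have hΓ1 : 1 ≤ Γ := hΓ ▸ Real.one_le_sqrt.2 (one_le_pow₀ (by norm_num))
  refine ⟨δ ^ n * C₀⁻¹ ^ n / Γ, by positivity, fun K _ _ hn hρ => ?_⟩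
  have hD : 1 ≤ |(discr K : ℝ)| := by
    rw [← Int.cast_abs]
    exact_mod_cast Int.one_le_abs (discr_ne_zero K)
  have hlD := Real.log_nonneg hD
  rw [div_mul_eq_mul_div, div_le_iff₀ (by linarith)]
  have hrank : rank K ≤ n := hn ▸ (rank_lt_finrank K).le
  rcases Nat.eq_zero_or_eq_succ_pred (rank K) with h0 | hsucc
  · haveI : IsEmpty {w : InfinitePlace K // w ≠ w₀} :=
      ⟨fun w => (Fin.cast h0 ((equivFinRank K).symm w)).elim0⟩
    rw [h0, Nat.zero_sub, pow_zero, mul_one, regulator_eq_det', Matrix.det_isEmpty, abs_one,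
      one_mul]
    calc δ ^ n * C₀⁻¹ ^ n ≤ 1 * 1 := mul_le_mul (pow_le_one₀ hδ.le hδ1)
          (pow_le_one₀ (by positivity) (inv_le_one_of_one_le₀ hC0)) (by positivity) zero_le_one
      _ ≤ Γ := by linarith
  obtain ⟨m, hm⟩ : ∃ m, rank K = m + 1 := ⟨_, hsucc⟩
  obtain ⟨e⟩ : Nonempty (Fin (m + 1) ≃ {w : InfinitePlace K // w ≠ w₀}) :=
    ⟨(finCongr hm.symm).trans (equivFinRank K)⟩
  obtain ⟨ε, hε⟩ : ∃ ε : Fin (m + 1) → (𝓞 K)ˣ,
      ∀ i, ε i = fundSystem K ((equivFinRank K).symm (e i)) := ⟨_, fun _ => rfl⟩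
  obtain ⟨M, hM⟩ : ∃ M : Matrix (Fin (m + 1)) (Fin (m + 1)) ℝ,
      ∀ i j, M i j = logEmbedding K (Additive.ofMul (ε i)) (e j) :=
    ⟨Matrix.of fun i j => logEmbedding K (Additive.ofMul (ε i)) (e j), fun _ _ => rfl⟩
  have hdet : |M.det| = regulator K := by
    rw [regulator_eq_det', ← Matrix.det_submatrix_equiv_self e]
    congr 2
    ext i j
    rw [hM, hε]
    rfl
  obtain ⟨P, hP⟩ : ∃ P, P = M * Mᵀ := ⟨_, rfl⟩
  have hPdet : P.det = regulator K ^ 2 := by
    rw [hP, det_mul, det_transpose, ← sq, ← sq_abs, hdet]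
  obtain ⟨z, hz⟩ : ∃ z : (Fin (m + 1) → ℤ) → (𝓞 K)ˣ, ∀ x, z x = ∏ i, ε i ^ x i :=
    ⟨_, fun _ => rfl⟩
  have hLz : ∀ x w, logEmbedding K (Additive.ofMul (z x)) (e w) = (Perfect.castVec x ᵥ* M) w := by
    intro x w
    rw [hz, ofMul_prod, map_sum, Finset.sum_apply, Matrix.vecMul, dotProduct]
    refine Finset.sum_congr rfl fun i _ => ?_
    rw [ofMul_zpow, map_zsmul, hM, Pi.smul_apply, zsmul_eq_mul, castVec]
  have hval : ∀ x, ival P x = sqLog (z x) := fun x => by
    rw [sqLog, ← e.sum_comp]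
    simp only [hLz]
    show quad P (castVec x) = _
    rw [quad, hP, ← Matrix.mulVec_mulVec, Matrix.dotProduct_mulVec, Matrix.mulVec_transpose,
      dotProduct]
    exact Finset.sum_congr rfl fun _ _ => (sq _).symm
  have hpsd : P.PosSemidef := by
    rw [hP]
    simpa using Matrix.posSemidef_self_mul_conjTranspose M
  have hpos : P.PosDef :=
    hpsd.posDef_iff_det_ne_zero.2 (hPdet ▸ pow_ne_zero 2 (regulator_ne_zero K))
  obtain ⟨v, hv⟩ := exists_minimaFamily hpos
  obtain ⟨s, hs⟩ : ∃ s : ℕ → ℝ,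
      ∀ k : Fin (m + 1), s k = Real.sqrt (ival P (v k)) :=
    ⟨fun k => if h : k < m + 1 then Real.sqrt (ival P (v ⟨k, h⟩)) else 0,
      fun k => by simp [k.2]⟩
  have hlow : ∀ k : Fin (m + 1), δ ≤ s k := fun k => by
    rw [hs, hval]
    refine hgap K hn _ fun htor => ?_
    have h0 : ival P (v k) = 0 := by
      rw [hval, sqLog, logEmbedding_eq_zero_iff.2 htor]
      simp
    refine (hpos.dotProduct_mulVec_pos (x := castVec (v k)) (hv.1.ne_zero k)).ne' ?_
    rw [star_trivial]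
    exact h0
  have hhigh : ∀ k : Fin (m + 1), ρ ≤ k → C₀⁻¹ * Real.log |(discr K : ℝ)| ≤ s k := by
    intro k hk
    obtain ⟨u, hu⟩ : ∃ u : Fin (ρ + 1) → (𝓞 K)ˣ,
        ∀ j, u j = z (v ⟨j, lt_of_le_of_lt ((Nat.le_of_lt_succ j.2).trans hk) k.2⟩) :=
      ⟨_, fun _ => rfl⟩
    have hind : LinearIndependent ℝ fun j => logEmbedding K (Additive.ofMul (u j)) := by
      have h1 := hv.1.comp (fun j : Fin (ρ + 1) =>
        (⟨j, lt_of_le_of_lt ((Nat.le_of_lt_succ j.2).trans hk) k.2⟩ : Fin (m + 1)))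
        fun a b h => Fin.ext (by simpa using h)
      have hMdet : IsUnit M.det := isUnit_iff_ne_zero.2 fun h => regulator_ne_zero K
        (by rw [← hdet, h, abs_zero])
      have h2 := h1.map' ((LinearEquiv.funCongrLeft ℝ ℝ e.symm).toLinearMap.comp M.vecMulLinear)
        (LinearMap.ker_eq_bot.2 ((LinearEquiv.funCongrLeft ℝ ℝ e.symm).injective.comp
          (Matrix.vecMul_injective_iff_isUnit.2 ((M.isUnit_iff_isUnit_det).2 hMdet))))
      convert! h2 using 1
      funext j w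
      rw [hu]
      obtain ⟨w, rfl⟩ := e.surjective w
      simp [hLz]
    obtain ⟨a, ha, hgen⟩ := exists_combination hn hρ u hind
    have hl := log_discr_le_of_unit _ hgen
    rw [hn] at hl
    have hq : ∀ j, √(sqLog (u j)) ≤ s k := fun j => by
      rw [hu, hs, ← hval]
      exact Real.sqrt_le_sqrt (hv.2.1 (Fin.le_def.2 ((Nat.le_of_lt_succ j.2).trans hk)))
    have hs0 : 0 ≤ s k := hδ.le.trans (hlow k)
    have hcomb : √(sqLog (∏ j, u j ^ a j)) ≤ B * s k := by
      refine Real.sqrt_le_iff.2 ⟨hB ▸ by positivity, ?_⟩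
      rw [sqLog]
      calc ∑ w, logEmbedding K (Additive.ofMul (∏ j, u j ^ a j)) w ^ 2
          ≤ ∑ w, ((ρ : ℝ) + 1) * ∑ j : Fin (ρ + 1),
              ((a j : ℝ) * logEmbedding K (Additive.ofMul (u j)) w) ^ 2 :=
            Finset.sum_le_sum fun w _ => by
              rw [ofMul_prod, map_sum, Finset.sum_apply]
              refine le_trans (le_of_eq ?_) ((sq_sum_le_card_mul_sum_sq (s := Finset.univ)
                (f := fun j => (a j : ℝ) * logEmbedding K (Additive.ofMul (u j)) w)).trans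
                (le_of_eq ?_))
              · congr 1
                refine Finset.sum_congr rfl fun j _ => ?_
                rw [ofMul_pow, map_nsmul, Pi.smul_apply, nsmul_eq_mul]
              · rw [Finset.card_univ, Fintype.card_fin, Nat.cast_add, Nat.cast_one]
        _ = ((ρ : ℝ) + 1) * ∑ j, (a j : ℝ) ^ 2 * sqLog (u j) := by
            rw [← Finset.mul_sum, Finset.sum_comm]
            congr 1
            refine Finset.sum_congr rfl fun j _ => ?_
            rw [sqLog, Finset.mul_sum]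
            exact Finset.sum_congr rfl fun w _ => mul_pow _ _ 2
        _ ≤ ((ρ : ℝ) + 1) * ∑ _j : Fin (ρ + 1),
              (((ρ * 2 ^ n + 1) ^ ρ : ℕ) : ℝ) ^ 2 * s k ^ 2 := by
            refine mul_le_mul_of_nonneg_left (Finset.sum_le_sum fun j _ => mul_le_mul
              (pow_le_pow_left₀ (Nat.cast_nonneg _) (Nat.cast_le.2 (ha j)) 2) ?_
              (sqLog_nonneg _) (sq_nonneg _)) (by positivity)
            rw [← Real.sq_sqrt (sqLog_nonneg (u j))]
            exact pow_le_pow_left₀ (Real.sqrt_nonneg _) (hq j) 2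
        _ = _ := by
            rw [Finset.sum_const, Finset.card_univ, Fintype.card_fin, nsmul_eq_mul, hB]
            push_cast
            ring
    rw [inv_mul_le_iff₀ (by linarith), hC₀]
    have h1 : 2 * Real.log (n.factorial : ℕ) ≤ 2 * Real.log (n.factorial : ℕ) / δ * s k := by
      rw [div_mul_eq_mul_div, le_div_iff₀ hδ]
      exact mul_le_mul_of_nonneg_left (hlow k) (mul_nonneg zero_le_two (Real.log_natCast_nonneg _))
    nlinarith [mul_le_mul_of_nonneg_left hcomb
      (by positivity : (0 : ℝ) ≤ 2 * (n : ℝ) ^ 3)]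
  -- Minkowski
  obtain ⟨q, hq⟩ : ∃ q, q = min ρ (m + 1) := ⟨_, rfl⟩
  have hprod : δ ^ n * C₀⁻¹ ^ n * Real.log |(discr K : ℝ)| ^ (rank K - ρ) ≤
      ∏ k : Fin (m + 1), s k := by
    rw [Fin.prod_univ_eq_prod_range s (m + 1),
      ← Finset.prod_range_mul_prod_Ico s (hq ▸ min_le_right ρ (m + 1))]
    have e1 : rank K - ρ = m + 1 - q := by rw [hm, hq]; omega
    calc δ ^ n * C₀⁻¹ ^ n * Real.log |(discr K : ℝ)| ^ (rank K - ρ)
        ≤ δ ^ q * (C₀⁻¹ * Real.log |(discr K : ℝ)|) ^ (m + 1 - q) := by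
          rw [mul_pow, e1, ← mul_assoc]
          refine mul_le_mul_of_nonneg_right (mul_le_mul
            (pow_le_pow_of_le_one hδ.le hδ1 (by omega))
            (pow_le_pow_of_le_one (by positivity) (inv_le_one_of_one_le₀ hC0) (by omega))
            (by positivity) (by positivity)) (by positivity)
      _ ≤ _ := by
          refine mul_le_mul ?_ ?_ (by positivity) ?_
          · rw [← Finset.card_range q, ← Finset.prod_const, Finset.card_range]
            exact Finset.prod_le_prod (fun _ _ => hδ.le) fun k hk => by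
              rw [Finset.mem_range] at hk
              exact hlow ⟨k, by omega⟩
          · rw [← Nat.card_Ico q (m + 1), ← Finset.prod_const]
            refine Finset.prod_le_prod (fun _ _ => by positivity) fun k hk => ?_
            rw [Finset.mem_Ico] at hk
            exact hhigh ⟨k, hk.2⟩ (by show ρ ≤ k; omega)
          · exact Finset.prod_nonneg fun k hk => hδ.le.trans (by
              rw [Finset.mem_range] at hk
              exact hlow ⟨k, by omega⟩)
  refine hprod.trans ?_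
  have h2 := (prod_succMin_bounds hpos fun _ hQ => hermiteInv_le_hermite hQ).2
  simp only [succMin_eq hv, hPdet] at h2
  have hsq : ∏ k : Fin (m + 1), s k = Real.sqrt (∏ k, ival P (v k)) := by
    rw [Real.sqrt_eq_rpow, ← Real.finsetProd_rpow _ _ fun k _ => (hval (v k)).symm ▸ sqLog_nonneg _]
    exact Finset.prod_congr rfl fun k _ => by rw [hs, Real.sqrt_eq_rpow]
  rw [hsq, Real.sqrt_le_iff]
  refine ⟨mul_nonneg (regulator_pos K).le (by linarith), h2.trans ?_⟩
  rw [mul_pow, mul_comm (regulator K ^ 2)]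
  refine mul_le_mul_of_nonneg_right ?_ (sq_nonneg _)
  refine le_trans ?_ (le_self_pow₀ hΓ1 two_ne_zero)
  rw [hΓ]
  exact Real.sqrt_le_sqrt (pow_le_pow_right₀ (by norm_num)
    (Nat.mul_le_mul (by omega) (by omega)))

/-- **Totally real fields.** -/
theorem exists_totallyReal (n : ℕ) (hn2 : 2 ≤ n) : ∃ c : ℝ, 0 < c ∧
    ∀ (K : Type) [Field K] [NumberField K] [IsTotallyReal K], finrank ℚ K = n →
      c * Real.log |(discr K : ℝ)| ^ ((n + 1) / 2) ≤ regulator K := by
  obtain ⟨c, hc, h⟩ := exists_silverman n (n / 2 - 1)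
  refine ⟨c, hc, fun K _ _ _ hn => le_trans (le_of_eq ?_) (h K hn fun F hF => ?_)⟩
  · have h1 : InfinitePlace.nrComplexPlaces K = 0 := IsTotallyReal.nrComplexPlaces_eq_zero K
    have h2 := InfinitePlace.card_add_two_mul_card_eq_rank K
    rw [show rank K - (n / 2 - 1) = (n + 1) / 2 by
      rw [show rank K = Fintype.card (InfinitePlace K) - 1 from rfl,
        InfinitePlace.card_eq_nrRealPlaces_add_nrComplexPlaces]; omega]
  · have h1 := rank_lt_finrank F
    have h2 : finrank ℚ F * finrank F K = n := hn ▸ Module.finrank_mul_finrank ℚ F K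
    have h3 : finrank F K ≠ 1 := fun e => hF (IntermediateField.finrank_eq_one_iff_eq_top.1 e)
    have h4 : 0 < finrank F K := Module.finrank_pos
    have h5 : finrank ℚ F ≤ n / 2 := by
      rw [Nat.le_div_iff_mul_le two_pos, ← h2]
      exact Nat.mul_le_mul_left _ (by omega)
    omega

end FA.RegulatorBound

end
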