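import Fermat.Agent.EllenbergVenkatesh.Generator
import Mathlib.NumberTheory.NumberField.Units.Regulator

/-!
# Units: the gap above zero and the discriminant of a generator

With `Q u` the sum of squares of the logarithmic coordinates, every `|log |φ u||` is at most
`n √(Q u)`; units that are not roots of unity have `Q` bounded below in terms of the degree alone,
and a generator has `log |d| ≤ 2 log n! + 2 n ^ 3 √(Q u)`.
-/

set_option autoImplicit false

noncomputable section

namespace FA.RegulatorBound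

open NumberField NumberField.Units NumberField.Units.dirichletUnitTheorem Module Polynomial
open scoped IntermediateField Classical

variable {K : Type} [Field K] [NumberField K]

/-- The sum of squares of the logarithmic coordinates. -/
def sqLog (u : (𝓞 K)ˣ) : ℝ := ∑ w, logEmbedding K (Additive.ofMul u) w ^ 2

theorem rank_lt_finrank (K : Type) [Field K] [NumberField K] : rank K < finrank ℚ K := by
  have h1 : Fintype.card (InfinitePlace K) ≤ finrank ℚ K := by
    rw [InfinitePlace.card_eq_nrRealPlaces_add_nrComplexPlaces,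
      ← InfinitePlace.card_add_two_mul_card_eq_rank]
    omega
  have h2 : 0 < Fintype.card (InfinitePlace K) := Fintype.card_pos
  rw [rank]
  omega

theorem sqLog_nonneg (u : (𝓞 K)ˣ) : 0 ≤ sqLog u := Finset.sum_nonneg fun _ _ => sq_nonneg _

theorem abs_coord_le (u : (𝓞 K)ˣ) (w : {w : InfinitePlace K // w ≠ w₀}) :
    |logEmbedding K (Additive.ofMul u) w| ≤ √(sqLog u) := by
  rw [← Real.sqrt_sq_eq_abs]
  exact Real.sqrt_le_sqrt (Finset.single_le_sum (f := fun w => logEmbedding K (Additive.ofMul u) w ^ 2)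
    (fun _ _ => sq_nonneg _) (Finset.mem_univ w))

theorem abs_log_embedding_le (u : (𝓞 K)ˣ) (φ : K →+* ℂ) :
    |Real.log ‖φ (u : K)‖| ≤ finrank ℚ K * √(sqLog u) := by
  obtain ⟨w, hw⟩ : ∃ w, w = InfinitePlace.mk φ := ⟨_, rfl⟩
  have hn : (1 : ℝ) ≤ finrank ℚ K := Nat.one_le_cast.2 finrank_pos
  have hm : (1 : ℝ) ≤ (InfinitePlace.mult w : ℝ) := InfinitePlace.one_le_mult
  have key : |(InfinitePlace.mult w : ℝ) * Real.log (w (u : K))| ≤
      finrank ℚ K * √(sqLog u) := by
    by_cases h : w = w₀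
    · have e := sum_logEmbedding_component u
      rw [h, ← abs_neg, ← neg_mul, ← e]
      refine (Finset.abs_sum_le_sum_abs _ _).trans ?_
      refine (Finset.sum_le_card_nsmul _ _ _ fun w _ => abs_coord_le u w).trans ?_
      rw [nsmul_eq_mul, Finset.card_univ]
      refine mul_le_mul_of_nonneg_right (Nat.cast_le.2 ?_) (Real.sqrt_nonneg _)
      refine (Fintype.card_subtype_le _).trans ?_
      rw [InfinitePlace.card_eq_nrRealPlaces_add_nrComplexPlaces,
        ← InfinitePlace.card_add_two_mul_card_eq_rank]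
      omega
    · refine (abs_coord_le u ⟨w, h⟩).trans' ?_ |>.trans
        (le_mul_of_one_le_left (Real.sqrt_nonneg _) hn)
      rw [logEmbedding_component]
  rw [abs_mul, abs_of_nonneg (by linarith : (0 : ℝ) ≤ InfinitePlace.mult w)] at key
  refine le_trans (le_of_eq ?_) ((le_mul_of_one_le_left (abs_nonneg _) hm).trans key)
  rw [hw, InfinitePlace.apply]

/-- **The gap above zero.** -/
theorem exists_gap (n : ℕ) : ∃ δ : ℝ, 0 < δ ∧ δ ≤ 1 ∧ ∀ (K : Type) [Field K] [NumberField K],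
    finrank ℚ K = n → ∀ u : (𝓞 K)ˣ, u ∉ torsion K → δ ≤ √(sqLog u) := by
  obtain ⟨C, hC⟩ : ∃ C, C = Nat.ceil ((max (2 : ℝ) 1) ^ n * n.choose (n / 2)) := ⟨_, rfl⟩
  have hfin := bUnion_roots_finite (algebraMap ℤ ℂ) n (Set.finite_Icc (-C : ℤ) C)
  obtain ⟨V, hV⟩ : ∃ V : Finset ℝ,
      V = insert (Real.log 2) ((hfin.toFinset.filter fun z => 1 < ‖z‖).image fun z => Real.log ‖z‖) :=
    ⟨_, rfl⟩
  have hne : V.Nonempty := hV ▸ Finset.insert_nonempty _ _
  have hpos : 0 < V.min' hne := by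
    rw [Finset.lt_min'_iff]
    intro x hx
    rw [hV, Finset.mem_insert, Finset.mem_image] at hx
    rcases hx with rfl | ⟨z, hz, rfl⟩
    · exact Real.log_pos one_lt_two
    · exact Real.log_pos (Finset.mem_filter.1 hz).2
  refine ⟨min 1 (V.min' hne / (n + 1)), lt_min one_pos (by positivity), min_le_left _ _,
    fun K _ _ hn u hu => ?_⟩
  have hu0 : (u : K) ≠ 0 := coe_ne_zero u
  have hint : IsIntegral ℤ (u : K) := RingOfIntegers.isIntegral_coe _
  obtain ⟨φ, hφ⟩ : ∃ φ : K →+* ℂ, 1 < ‖φ (u : K)‖ := by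
    by_contra hall
    push Not at hall
    obtain ⟨k, hk, hpow⟩ := Embeddings.pow_eq_one_of_norm_le_one K ℂ hu0 hint hall
    refine hu ((CommGroup.mem_torsion _).2 (isOfFinOrder_iff_pow_eq_one.2 ⟨k, hk, ?_⟩))
    apply Units.ext
    apply RingOfIntegers.ext
    simpa using hpow
  have hbig : V.min' hne ≤ (finrank ℚ K : ℝ) * √(sqLog u) := by
    by_cases hall : ∀ ψ : K →+* ℂ, ‖ψ (u : K)‖ ≤ 2
    · refine le_trans ?_ ((le_abs_self _).trans (abs_log_embedding_le u φ))
      refine Finset.min'_le _ _ ?_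
      rw [hV, Finset.mem_insert, Finset.mem_image]
      refine Or.inr ⟨φ (u : K), Finset.mem_filter.2 ⟨(Set.Finite.mem_toFinset hfin).2 ?_, hφ⟩, rfl⟩
      simp_rw [Set.mem_iUnion]
      have hm := minpoly.isIntegrallyClosed_eq_field_fractions' ℚ hint
      refine ⟨minpoly ℤ (u : K), ⟨?_, fun i => ?_⟩, ?_⟩
      · rw [← (minpoly.monic hint).natDegree_map (algebraMap ℤ ℚ), ← hm, ← hn]
        exact minpoly.natDegree_le (u : K)
      · rw [Set.mem_Icc, ← abs_le, ← @Int.cast_le ℝ, hC]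
        refine (Eq.trans_le ?_ <| Embeddings.coeff_bdd_of_norm_le (A := ℂ) hall i).trans
          (hn ▸ Nat.le_ceil _)
        rw [hm, coeff_map, eq_intCast, Int.norm_cast_rat, Int.norm_eq_abs, Int.cast_abs]
      · rw [Finset.mem_coe, Multiset.mem_toFinset, mem_roots ((minpoly.monic hint).map _).ne_zero,
          IsRoot, eval_map, ← aeval_def, show φ (u : K) = φ.toIntAlgHom (u : K) from rfl,
          aeval_algHom_apply, minpoly.aeval, map_zero]
    · push Not at hall
      obtain ⟨ψ, hψ⟩ := hall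
      refine le_trans ?_ ((le_abs_self _).trans (abs_log_embedding_le u ψ))
      exact (Finset.min'_le _ _ (hV ▸ Finset.mem_insert_self _ _)).trans
        (Real.log_le_log two_pos hψ.le)
  refine (min_le_right _ _).trans ((div_le_iff₀ (by positivity)).2 (hbig.trans ?_))
  rw [hn, mul_comm]
  exact mul_le_mul_of_nonneg_left (by linarith) (Real.sqrt_nonneg _)

/-- **The discriminant and a generating unit.** -/
theorem abs_discr_le_of_unit (u : (𝓞 K)ˣ) (hu : ℚ⟮(u : K)⟯ = ⊤) :
    |(discr K : ℝ)| ≤ ((finrank ℚ K).factorial : ℝ) ^ 2 *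
      (∏ φ : K →+* ℂ, max ‖φ (u : K)‖ 1) ^ (2 * (finrank ℚ K - 1)) := by
  have h := EllenbergVenkatesh.discr_mul_absNorm_le (u : 𝓞 K) 1 (by simpa using hu) one_ne_zero ⊤
    trivial trivial
  simpa using h

theorem log_discr_le_of_unit (u : (𝓞 K)ˣ) (hu : ℚ⟮(u : K)⟯ = ⊤) :
    Real.log |(discr K : ℝ)| ≤ 2 * Real.log (finrank ℚ K).factorial +
      2 * (finrank ℚ K : ℝ) ^ 3 * √(sqLog u) := by
  obtain ⟨n, hn⟩ : ∃ n, n = finrank ℚ K := ⟨_, rfl⟩
  have h := Real.log_le_log (abs_pos.2 (Int.cast_ne_zero.2 (discr_ne_zero K)))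
    (abs_discr_le_of_unit u hu)
  have hmax : ∀ φ : K →+* ℂ, 0 < max ‖φ (u : K)‖ 1 := fun φ =>
    lt_max_of_lt_right one_pos
  rw [← hn] at h ⊢
  rw [Real.log_mul (pow_ne_zero _ (Nat.cast_ne_zero.2 n.factorial_ne_zero))
    (pow_ne_zero _ (Finset.prod_pos fun φ _ => hmax φ).ne'), Real.log_pow, Real.log_pow,
    Real.log_prod fun φ _ => (hmax φ).ne'] at h
  have hs : ∀ φ : K →+* ℂ, Real.log (max ‖φ (u : K)‖ 1) ≤ n * √(sqLog u) := fun φ => by
    rcases max_choice ‖φ (u : K)‖ 1 with e | e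
    · rw [e, hn]
      exact (le_abs_self _).trans (abs_log_embedding_le u φ)
    · rw [e, Real.log_one]
      positivity
  refine h.trans (add_le_add (le_of_eq (by norm_num)) ?_)
  refine (mul_le_mul_of_nonneg_left (Finset.sum_le_card_nsmul _ _ _ fun φ _ => hs φ)
    (Nat.cast_nonneg _)).trans ?_
  rw [Finset.card_univ, Embeddings.card, ← hn, nsmul_eq_mul]
  push_cast
  have : ((n - 1 : ℕ) : ℝ) ≤ n := Nat.cast_le.2 (Nat.sub_le n 1)
  calc 2 * ((n - 1 : ℕ) : ℝ) * ((n : ℝ) * ((n : ℝ) * √(sqLog u)))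
      ≤ 2 * (n : ℝ) * ((n : ℝ) * ((n : ℝ) * √(sqLog u))) := by gcongr
    _ = _ := by ring

end FA.RegulatorBound

end
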